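import Fermat.Agent.H13.Cft.Interfaces

/-!
# P-CFT / B-ADM (row 527): admissibility

`Fermat.Agent.H21.Cft.admStatement : Fermat.Agent.H13.Cft.AdmStatement`: a finite-dimensional
`ZMod p`-representation of `G_ℚ`, smooth (every vector is fixed by the fixing subgroup of a finite
extension) and unramified outside `S`, is trivialised by a level of `G_{ℚ,S}`: take the kernel of
the representation.
-/

set_option autoImplicit false

open CategoryTheory IntermediateField

namespace Fermat.Agent.H21.Cft

open Fermat.Agent.H13.Cft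

/-- `ℚ̄ / ℚ` is Galois. -/
theorem isGalois_qbar_adm : IsGalois ℚ (AlgebraicClosure ℚ) := by
  have h : (DivisionRing.toRatAlgebra : Algebra ℚ (AlgebraicClosure ℚ)) =
      AlgebraicClosure.instAlgebra ℚ := Subsingleton.elim _ _
  rw [h]
  infer_instance

/-- The fixing subgroup of a finite extension of `ℚ` has finite index in `G_ℚ`. -/
theorem finiteIndex_fixingSubgroup_adm (F : IntermediateField ℚ (AlgebraicClosure ℚ))
    [FiniteDimensional ℚ F] : F.fixingSubgroup.FiniteIndex := by
  haveI := isGalois_qbar_adm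
  refine ⟨?_⟩
  rw [← IntermediateField.finrank_eq_fixingSubgroup_index]
  exact Module.finrank_pos.ne'

/-- **[B-ADM]** -/
theorem admStatement : AdmStatement := by
  intro p _ S M _ hsm hMur
  classical
  -- a finite field fixing a basis
  obtain ⟨F, hFfin, hF⟩ : ∃ F : IntermediateField ℚ (AlgebraicClosure ℚ),
      FiniteDimensional ℚ F ∧ ∀ s ∈ F.fixingSubgroup, M.ρ s = 1 := by
    choose Fm hFm1 hFm2 using hsm
    let b := Module.finBasis (ZMod p) M
    refine ⟨⨆ i, Fm (b i), ?_, ?_⟩
    · haveI : ∀ i, FiniteDimensional ℚ (Fm (b i)) := fun i => hFm1 (b i)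
      exact IntermediateField.finiteDimensional_iSup_of_finite
    · intro s hs
      refine b.ext fun i => ?_
      have hle : Fm (b i) ≤ ⨆ j, Fm (b j) := le_iSup (fun j => Fm (b j)) i
      have hs' : s ∈ (Fm (b i)).fixingSubgroup :=
        IntermediateField.fixingSubgroup_le hle hs
      rw [hFm2 (b i) s hs']
      rfl
  refine ⟨M.ρ.ker, ⟨?_, ?_, ⟨F, hFfin, ?_⟩, ?_⟩, ?_⟩
  · exact MonoidHom.normal_ker _
  · haveI := finiteIndex_fixingSubgroup_adm F
    exact Subgroup.finiteIndex_of_le (H := F.fixingSubgroup) (fun s hs => by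
      rw [MonoidHom.mem_ker]; exact hF s hs)
  · intro s hs
    rw [MonoidHom.mem_ker]
    exact hF s hs
  · intro q hq A hA g hg
    rw [MonoidHom.mem_ker]
    exact hMur q hq A hA g hg
  · intro s hs
    exact MonoidHom.mem_ker.mp hs

end Fermat.Agent.H21.Cft
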