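import Fermat.Agent.H21.Cft.BridgeLevels
import Fermat.Agent.H58.Cft.BridgeInterfaces

/-!
# P-CFT / BR-L (row 588): the level dictionary, in helper58's interface shapes
-/

set_option autoImplicit false

open CategoryTheory IntermediateField groupCohomology

namespace Fermat.Agent.H21.Cft

open Fermat.Agent.H13.Cft

/-- **[BR-L1]** -/
theorem levelOfFieldStatement : Fermat.Agent.H58.Cft.LevelOfFieldStatement :=
  fun S _ hF => exists_level_le_fixingSubgroup S hF

/-- **[BR-L2]** -/
theorem fieldOfLevelStatement : Fermat.Agent.H58.Cft.FieldOfLevelStatement := by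
  intro S N hN
  obtain ⟨F, hF, hFN⟩ := exists_unramified_field_of_level S hN
  exact ⟨F, hF, hFN.le⟩

/-- **[BR-L3]** -/
theorem localLevelOfFieldStatement : Fermat.Agent.H58.Cft.LocalLevelOfFieldStatement := by
  intro Γ _ r F hF
  exact exists_pullbackLevel_le r F

end Fermat.Agent.H21.Cft
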