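import Fermat.Agent.H21.Cft.Adm
import Fermat.Agent.H96.Cft.KummerDivisible

/-!
# P-CFT / B-BRIDGE, piece (1) LEVELS

Dictionary between the prelude's level-constancy predicates and helper13's level cochains:

* `exists_level_le_fixingSubgroup` : for `F` unramified outside `S` there is a level `N` of
  `G_{ℚ,S}` with `N ≤ F.fixingSubgroup`;
* `exists_unramified_field_of_level` : every level `N` of `G_{ℚ,S}` is the fixing subgroup of a
  field unramified outside `S`;
* `isLevelConstantS₁_iff`, `isLevelConstantS₂_iff` : for `M` trivialised by a level,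
  `IsLevelConstantS₁ S f ↔ f ∈ lvlCochains (globalLevelSys S) M 1` (and degree 2);
* `isLevelConstant₁_iff_pullback`, `isLevelConstant₂_iff_pullback` : the local analogues for
  `pullbackLevelSys r`.
-/

set_option autoImplicit false

open CategoryTheory IntermediateField groupCohomology
open scoped Pointwise

namespace Fermat.Agent.H21.Cft

open Fermat.Agent.H13.Cft

/-! ## Fields and levels -/

/-- For `F` unramified outside `S` the normal core of `F.fixingSubgroup` is a level of
`G_{ℚ,S}`. -/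
theorem normalCore_mem_globalLevelSys (S : Finset Nat.Primes)
    {F : IntermediateField ℚ (AlgebraicClosure ℚ)} (hF : F.IsUnramifiedOutside S) :
    F.fixingSubgroup.normalCore ∈ (globalLevelSys S).sets := by
  haveI := isGalois_qbar_adm
  haveI : FiniteDimensional ℚ F := hF.1
  haveI := finiteIndex_fixingSubgroup_adm F
  refine ⟨Subgroup.normalCore_normal _, Subgroup.finiteIndex_normalCore _, ?_, ?_⟩
  · -- the normal closure
    refine ⟨normalClosure ℚ F (AlgebraicClosure ℚ), normalClosure.is_finiteDimensional ℚ F _, ?_⟩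
    haveI : Normal ℚ (AlgebraicClosure ℚ) := isGalois_qbar_adm.to_normal
    haveI : Normal ℚ (normalClosure ℚ F (AlgebraicClosure ℚ)) := normalClosure.normal ℚ F _
    haveI : IsGalois ℚ (normalClosure ℚ F (AlgebraicClosure ℚ)) := ⟨⟩
    haveI : (normalClosure ℚ F (AlgebraicClosure ℚ)).fixingSubgroup.Normal :=
      (InfiniteGalois.normal_iff_isGalois _).mpr inferInstance
    rw [Subgroup.normal_le_normalCore]
    exact IntermediateField.fixingSubgroup_antitone (IntermediateField.le_normalClosure F)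
  · intro q hq A hA σ hσ
    rw [Subgroup.normalCore, Subgroup.mem_mk]
    intro g
    have h1 := Fermat.Agent.H96.Cft.conj_mem_inertiaSubgroupIn_smul (K := ℚ) g hσ
    exact hF.2 q hq (g • A) (Fermat.Agent.H96.Cft.liesOverPrime_smul g hA) h1

theorem exists_level_le_fixingSubgroup (S : Finset Nat.Primes)
    {F : IntermediateField ℚ (AlgebraicClosure ℚ)} (hF : F.IsUnramifiedOutside S) :
    ∃ N ∈ (globalLevelSys S).sets, N ≤ F.fixingSubgroup :=
  ⟨_, normalCore_mem_globalLevelSys S hF, Subgroup.normalCore_le _⟩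

/-- Every level of `G_{ℚ,S}` is the fixing subgroup of a field unramified outside `S`. -/
theorem exists_unramified_field_of_level (S : Finset Nat.Primes) {N : Subgroup GQ}
    (hN : N ∈ (globalLevelSys S).sets) :
    ∃ F : IntermediateField ℚ (AlgebraicClosure ℚ), F.IsUnramifiedOutside S ∧
      F.fixingSubgroup = N := by
  haveI := isGalois_qbar_adm
  obtain ⟨-, -, ⟨F₁, hF₁, hF₁N⟩, hI⟩ := hN
  have hopen : IsOpen (N : Set GQ) :=
    Subgroup.isOpen_mono hF₁N (IntermediateField.fixingSubgroup_isOpen F₁)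
  have hclosed : IsClosed (N : Set GQ) := Subgroup.isClosed_of_isOpen N hopen
  have hfix : (IntermediateField.fixedField N).fixingSubgroup = N :=
    InfiniteGalois.fixingSubgroup_fixedField ⟨N, hclosed⟩
  have hle : IntermediateField.fixedField N ≤ F₁ := by
    have := IntermediateField.fixedField_antitone hF₁N
    rwa [InfiniteGalois.fixedField_fixingSubgroup] at this
  refine ⟨IntermediateField.fixedField N, ⟨?_, ?_⟩, hfix⟩
  · exact FiniteDimensional.of_injective (IntermediateField.inclusion hle).toLinearMap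
      (IntermediateField.inclusion_injective hle)
  · intro q hq A hA
    rw [hfix]
    exact hI q hq A hA

/-! ## Global level-constancy -/

section global

variable {k : Type} [CommRing k] (S : Finset Nat.Primes) (M : Rep k GQ)

theorem isLevelConstantS₁_iff (hM : IsTrivialisedBy (globalLevelSys S) M) (f : GQ → M) :
    IsLevelConstantS₁ S f ↔
      (fun g : Fin 1 → GQ => f (g 0)) ∈ lvlCochains (globalLevelSys S) M 1 := by
  constructor
  · rintro ⟨F, hF, hf⟩
    obtain ⟨N₀, hN₀, hN₀M⟩ := hM
    obtain ⟨N₁, hN₁, hN₁F⟩ := exists_level_le_fixingSubgroup S hF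
    obtain ⟨N, hN, hNle⟩ := (globalLevelSys S).directed N₀ hN₀ N₁ hN₁
    refine ⟨N, hN, fun g u hu => ?_, fun g s hs => ?_⟩
    · exact hf (g 0) (u 0) (hN₁F ((hNle.trans inf_le_right) (hu 0)))
    · rw [hN₀M s ((hNle.trans inf_le_left) hs)]
      rfl
  · rintro ⟨N, hN, hf, -⟩
    obtain ⟨F, hF, hFN⟩ := exists_unramified_field_of_level S hN
    refine ⟨F, hF, fun g s hs => ?_⟩
    have := hf (fun _ => g) (fun _ => s) (fun _ => hFN ▸ hs)
    exact this

theorem isLevelConstantS₂_iff (hM : IsTrivialisedBy (globalLevelSys S) M) (f : GQ × GQ → M) :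
    IsLevelConstantS₂ S f ↔
      (fun g : Fin 2 → GQ => f (g 0, g 1)) ∈ lvlCochains (globalLevelSys S) M 2 := by
  constructor
  · rintro ⟨F, hF, hf⟩
    obtain ⟨N₀, hN₀, hN₀M⟩ := hM
    obtain ⟨N₁, hN₁, hN₁F⟩ := exists_level_le_fixingSubgroup S hF
    obtain ⟨N, hN, hNle⟩ := (globalLevelSys S).directed N₀ hN₀ N₁ hN₁
    refine ⟨N, hN, fun g u hu => ?_, fun g s hs => ?_⟩
    · exact hf (g 0) (g 1) (u 0) (u 1) (hN₁F ((hNle.trans inf_le_right) (hu 0)))
        (hN₁F ((hNle.trans inf_le_right) (hu 1)))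
    · rw [hN₀M s ((hNle.trans inf_le_left) hs)]
      rfl
  · rintro ⟨N, hN, hf, -⟩
    obtain ⟨F, hF, hFN⟩ := exists_unramified_field_of_level S hN
    refine ⟨F, hF, fun g g' s s' hs hs' => ?_⟩
    have := hf ![g, g'] ![s, s'] (fun i => by
      fin_cases i
      · exact hFN ▸ hs
      · exact hFN ▸ hs')
    exact this

end global

/-! ## Local level-constancy -/

section loc

variable {k : Type} [CommRing k] {Γ : Type} [Group Γ] (r : Γ →* GQ) (M : Rep k Γ)

/-- For `F` finite over `ℚ` there is a level of `pullbackLevelSys r` inside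
`r⁻¹ (F.fixingSubgroup)`. -/
theorem exists_pullbackLevel_le (F : IntermediateField ℚ (AlgebraicClosure ℚ))
    [FiniteDimensional ℚ F] :
    ∃ N ∈ (pullbackLevelSys r).sets, N ≤ F.fixingSubgroup.comap r := by
  haveI := isGalois_qbar_adm
  haveI := finiteIndex_fixingSubgroup_adm F
  haveI hnc : F.fixingSubgroup.normalCore.Normal := Subgroup.normalCore_normal _
  haveI hfi : F.fixingSubgroup.normalCore.FiniteIndex := Subgroup.finiteIndex_normalCore _
  refine ⟨F.fixingSubgroup.normalCore.comap r, ⟨inferInstance, ⟨?_⟩, ?_⟩,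
    Subgroup.comap_mono (Subgroup.normalCore_le _)⟩
  · rw [Subgroup.index_comap]
    intro h
    exact hfi.index_ne_zero (Subgroup.index_eq_zero_of_relIndex_eq_zero h)
  · refine ⟨normalClosure ℚ F (AlgebraicClosure ℚ), normalClosure.is_finiteDimensional ℚ F _,
      Subgroup.comap_mono ?_⟩
    haveI : Normal ℚ (AlgebraicClosure ℚ) := isGalois_qbar_adm.to_normal
    haveI : Normal ℚ (normalClosure ℚ F (AlgebraicClosure ℚ)) := normalClosure.normal ℚ F _
    haveI : IsGalois ℚ (normalClosure ℚ F (AlgebraicClosure ℚ)) := ⟨⟩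
    haveI : (normalClosure ℚ F (AlgebraicClosure ℚ)).fixingSubgroup.Normal :=
      (InfiniteGalois.normal_iff_isGalois _).mpr inferInstance
    rw [Subgroup.normal_le_normalCore]
    exact IntermediateField.fixingSubgroup_antitone (IntermediateField.le_normalClosure F)

theorem isLevelConstant₁_iff_pullback (hM : IsTrivialisedBy (pullbackLevelSys r) M)
    (f : Γ → M) :
    IsLevelConstant₁ r f ↔
      (fun g : Fin 1 → Γ => f (g 0)) ∈ lvlCochains (pullbackLevelSys r) M 1 := by
  constructor
  · rintro ⟨F, hF, hf⟩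
    obtain ⟨N₀, hN₀, hN₀M⟩ := hM
    obtain ⟨N₁, hN₁, hN₁F⟩ := exists_pullbackLevel_le r F
    obtain ⟨N, hN, hNle⟩ := (pullbackLevelSys r).directed N₀ hN₀ N₁ hN₁
    refine ⟨N, hN, fun g u hu => ?_, fun g s hs => ?_⟩
    · exact hf (g 0) (u 0) (hN₁F ((hNle.trans inf_le_right) (hu 0)))
    · rw [hN₀M s ((hNle.trans inf_le_left) hs)]
      rfl
  · rintro ⟨N, ⟨-, -, F, hF, hFN⟩, hf, -⟩
    refine ⟨F, hF, fun g s hs => ?_⟩
    have := hf (fun _ => g) (fun _ => s) (fun _ => hFN hs)
    exact this

theorem isLevelConstant₂_iff_pullback (hM : IsTrivialisedBy (pullbackLevelSys r) M)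
    (f : Γ × Γ → M) :
    IsLevelConstant₂ r f ↔
      (fun g : Fin 2 → Γ => f (g 0, g 1)) ∈ lvlCochains (pullbackLevelSys r) M 2 := by
  constructor
  · rintro ⟨F, hF, hf⟩
    obtain ⟨N₀, hN₀, hN₀M⟩ := hM
    obtain ⟨N₁, hN₁, hN₁F⟩ := exists_pullbackLevel_le r F
    obtain ⟨N, hN, hNle⟩ := (pullbackLevelSys r).directed N₀ hN₀ N₁ hN₁
    refine ⟨N, hN, fun g u hu => ?_, fun g s hs => ?_⟩
    · exact hf (g 0) (g 1) (u 0) (u 1) (hN₁F ((hNle.trans inf_le_right) (hu 0)))
        (hN₁F ((hNle.trans inf_le_right) (hu 1)))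
    · rw [hN₀M s ((hNle.trans inf_le_left) hs)]
      rfl
  · rintro ⟨N, ⟨-, -, F, hF, hFN⟩, hf, -⟩
    refine ⟨F, hF, fun g g' s s' hs hs' => ?_⟩
    have := hf ![g, g'] ![s, s'] (fun i => by
      fin_cases i
      · exact hFN hs
      · exact hFN hs')
    exact this

end loc

end Fermat.Agent.H21.Cft
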